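/-
S44 / F / Dual / Int (helper100).  NODE INT-1: the subring `bddRing A` of `ℚ̄((q))` of the series whose coefficients lie
in a number field and have bounded `A`-denominators.
-/
import Fermat.Agent.GAL.E.Bound
import Fermat.Agent.S18.Vert.Core
import Fermat.Agent.S28.IntLaurent
import Fermat.Agent.S44.Defs

set_option autoImplicit false

noncomputable section

namespace Fermat.Agent.S44.F

open ModularCurve AlgebraicCurve Polynomial Fermat.Agent.S24 Fermat.Agent.GAL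

/-- coefficients in a number field, bounded `A`-denominators -/
def IsBdd (A : ValuationSubring Qb) (z : LaurentSeries Kbar) : Prop :=
  (∃ L : IntermediateField ℚ Kbar, FiniteDimensional ℚ L ∧ ∀ k, z.coeff k ∈ L) ∧
    ∃ c : Kbar, c ≠ 0 ∧ c ∈ A ∧ ∀ k, c * z.coeff k ∈ A

theorem IsBdd.add {A : ValuationSubring Qb} {x y : LaurentSeries Kbar} (hx : IsBdd A x)
    (hy : IsBdd A y) : IsBdd A (x + y) := by
  obtain ⟨⟨L₁, hL₁, h₁⟩, c₁, hc₁, hc₁A, hA₁⟩ := hx
  obtain ⟨⟨L₂, hL₂, h₂⟩, c₂, hc₂, hc₂A, hA₂⟩ := hy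
  refine ⟨⟨L₁ ⊔ L₂, IntermediateField.finiteDimensional_sup L₁ L₂, fun k => ?_⟩,
    c₁ * c₂, mul_ne_zero hc₁ hc₂, mul_mem hc₁A hc₂A, fun k => ?_⟩
  · rw [HahnSeries.coeff_add]
    exact add_mem ((le_sup_left : L₁ ≤ L₁ ⊔ L₂) (h₁ k)) ((le_sup_right : L₂ ≤ L₁ ⊔ L₂) (h₂ k))
  · rw [HahnSeries.coeff_add]
    have : c₁ * c₂ * (x.coeff k + y.coeff k) =
        c₂ * (c₁ * x.coeff k) + c₁ * (c₂ * y.coeff k) := by ring
    rw [this]
    exact add_mem (mul_mem hc₂A (hA₁ k)) (mul_mem hc₁A (hA₂ k))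

theorem IsBdd.mul {A : ValuationSubring Qb} {x y : LaurentSeries Kbar} (hx : IsBdd A x)
    (hy : IsBdd A y) : IsBdd A (x * y) := by
  obtain ⟨⟨L₁, hL₁, h₁⟩, c₁, hc₁, hc₁A, hA₁⟩ := hx
  obtain ⟨⟨L₂, hL₂, h₂⟩, c₂, hc₂, hc₂A, hA₂⟩ := hy
  refine ⟨⟨L₁ ⊔ L₂, IntermediateField.finiteDimensional_sup L₁ L₂, fun k => ?_⟩,
    c₁ * c₂, mul_ne_zero hc₁ hc₂, mul_mem hc₁A hc₂A, fun k => ?_⟩
  · rw [HahnSeries.coeff_mul]
    refine sum_mem fun ij _ => ?_
    exact mul_mem ((le_sup_left : L₁ ≤ L₁ ⊔ L₂) (h₁ _)) ((le_sup_right : L₂ ≤ L₁ ⊔ L₂) (h₂ _))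
  · rw [HahnSeries.coeff_mul, Finset.mul_sum]
    refine sum_mem fun ij _ => ?_
    have : c₁ * c₂ * (x.coeff ij.1 * y.coeff ij.2) =
        (c₁ * x.coeff ij.1) * (c₂ * y.coeff ij.2) := by ring
    rw [this]
    exact mul_mem (hA₁ _) (hA₂ _)

theorem IsBdd.neg {A : ValuationSubring Qb} {x : LaurentSeries Kbar} (hx : IsBdd A x) :
    IsBdd A (-x) := by
  obtain ⟨⟨L₁, hL₁, h₁⟩, c₁, hc₁, hc₁A, hA₁⟩ := hx
  refine ⟨⟨L₁, hL₁, fun k => ?_⟩, c₁, hc₁, hc₁A, fun k => ?_⟩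
  · rw [HahnSeries.coeff_neg]
    exact neg_mem (h₁ k)
  · rw [HahnSeries.coeff_neg, mul_neg]
    exact neg_mem (hA₁ k)

theorem isBdd_C (A : ValuationSubring Qb) (a : Kbar) :
    IsBdd A (HahnSeries.C a : LaurentSeries Kbar) := by
  have hcoeff : ∀ k, (HahnSeries.C a : LaurentSeries Kbar).coeff k = a ∨
      (HahnSeries.C a : LaurentSeries Kbar).coeff k = 0 := by
    intro k
    rw [HahnSeries.C_apply]
    by_cases hk : k = 0
    · left; rw [hk, HahnSeries.coeff_single_same]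
    · right; rw [HahnSeries.coeff_single_of_ne hk]
  refine ⟨⟨IntermediateField.adjoin ℚ {a},
    IntermediateField.adjoin.finiteDimensional (E.isIntegral_rat_Kbar a), fun k => ?_⟩, ?_⟩
  · rcases hcoeff k with h | h <;> rw [h]
    · exact IntermediateField.mem_adjoin_simple_self ℚ a
    · exact zero_mem _
  · rcases A.mem_or_inv_mem a with ha | ha
    · refine ⟨1, one_ne_zero, one_mem _, fun k => ?_⟩
      rcases hcoeff k with h | h <;> rw [h, one_mul]
      · exact ha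
      · exact zero_mem _
    · by_cases ha0 : a = 0
      · refine ⟨1, one_ne_zero, one_mem _, fun k => ?_⟩
        rcases hcoeff k with h | h <;> rw [h, one_mul]
        · rw [ha0]; exact zero_mem _
        · exact zero_mem _
      · refine ⟨a⁻¹, inv_ne_zero ha0, ha, fun k => ?_⟩
        rcases hcoeff k with h | h <;> rw [h]
        · rw [inv_mul_cancel₀ ha0]; exact one_mem _
        · rw [mul_zero]; exact zero_mem _

/-- the subring of bounded series -/
def bddRing (A : ValuationSubring Qb) : Subring (LaurentSeries Kbar) where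
  carrier := {z | IsBdd A z}
  mul_mem' := IsBdd.mul
  one_mem' := by simpa using isBdd_C A 1
  add_mem' := IsBdd.add
  zero_mem' := by simpa using isBdd_C A 0
  neg_mem' := IsBdd.neg

theorem mem_bddRing_iff (A : ValuationSubring Qb) (z : LaurentSeries Kbar) :
    z ∈ bddRing A ↔ IsBdd A z := Iff.rfl

/-- series with coefficients in `ℤ_(p)` are bounded -/
theorem isBdd_coeffMap_zl {p : ℕ} [Fact p.Prime] (A : ValuationSubring Qb) (hA : A.LiesOverPrime p)
    (x : LaurentSeries (S28.Zl p)) :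
    IsBdd A (coeffMap (A.subtype.comp (S18.Vert.zlTo A hA)) x) := by
  have hc : ∀ k, (coeffMap (A.subtype.comp (S18.Vert.zlTo A hA)) x).coeff k =
      ((S18.Vert.zlTo A hA (x.coeff k) : A) : Kbar) := fun k => rfl
  refine ⟨⟨⊥, inferInstance, fun k => ?_⟩, 1, one_ne_zero, one_mem _, fun k => ?_⟩
  · rw [hc]
    change (((x.coeff k : ℚ) : Kbar)) ∈ (⊥ : IntermediateField ℚ Kbar)
    rw [← eq_ratCast (algebraMap ℚ Kbar)]
    exact IntermediateField.algebraMap_mem _ _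
  · rw [hc, one_mul]
    exact (S18.Vert.zlTo A hA (x.coeff k)).2

theorem isBdd_evalJ {p : ℕ} [Fact p.Prime] (A : ValuationSubring Qb) (hA : A.LiesOverPrime p)
    (P : Kbar[X]) : IsBdd A (S28.evalJ Kbar P) := by
  have hj : jqModC Kbar ∈ bddRing A := by
    rw [← coeffMap_jqModC (A.subtype.comp (S18.Vert.zlTo A hA))]
    exact isBdd_coeffMap_zl A hA _
  change S28.evalJ Kbar P ∈ bddRing A
  rw [S28.evalJ_eq_sum]
  exact sum_mem fun i _ => mul_mem (isBdd_C A _) (pow_mem hj i)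

end Fermat.Agent.S44.F

end
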