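/-
S44 / F / Dual / Int (helper100).  NODE INT-2, abstract form: a subring `T` of `ℚ̄((q))` which contains `ℚ̄[j]` and the
series with coefficients in `ℤ_(p)` contains every element of `FN M` (`p ∤ M`) which is integral over `ℚ̄[j]`.
One application of `S28.euler_core` with base ring `ℚ̄[X]`, `φ = evalJ ℚ̄`, `χ = chiK`, `u = uK`, `l = 1`.
(helper245, task 2995)
-/
import Fermat.Agent.S44.F.Dual.Defs
import Fermat.Agent.S28.EulerCore
import Fermat.Agent.S28.Export.Main

set_option autoImplicit false

noncomputable section

namespace Fermat.Agent.S44.F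

open ModularCurve AlgebraicCurve Polynomial Fermat.Agent.S24 Fermat.Agent.GAL

theorem eulerAbs_mem_of_isIntegralElem (p M : ℕ) [NeZero M] [Fact p.Prime] (hpM : ¬ p ∣ M)
    (A : ValuationSubring Qb) (hA : A.LiesOverPrime p) (T : Subring (LaurentSeries Kbar))
    (hT1 : ∀ P : Kbar[X], S28.evalJ Kbar P ∈ T)
    (hT2 : ∀ z : LaurentSeries (S28.Zl p),
      coeffMap (A.subtype.comp (S18.Vert.zlTo A hA)) z ∈ T)
    (x : LaurentSeries Kbar)
    (hx : x ∈ modularFunctionFieldBar M) (hint : (S28.evalJ Kbar).IsIntegralElem x) :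
    x ∈ T := by
  obtain ⟨D, -, hu⟩ := S28.Export.exists_good_UData M p hpM
  have huK : S28.Export.uK A D hA =
      coeffMap (A.subtype.comp (S18.Vert.zlTo A hA)) D.uZ := by
    rw [S28.Export.uK, S28.Export.uO, S18.Vert.uS_comp, S18.Vert.uS]
  have key := S28.euler_core (A := Kbar[X]) (Ω := LaurentSeries Kbar) (S28.evalJ Kbar)
    (S28.evalJ_injective Kbar) (S28.Export.chiK A D hA) (S18.Vert.irreducible_chiS D _)
    (S18.Vert.chiS_monic D _) (S28.Export.uK A D hA) (S28.Export.chiK_eval A D hA)
    T hT1
    (by
      rw [huK]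
      exact hT2 _)
    (by
      obtain ⟨v, hv⟩ := S18.Vert.isUnit_derivative_uZ D
      have h1 : (derivative (S28.Export.chiK A D hA)).eval₂ (S28.evalJ Kbar)
          (S28.Export.uK A D hA) =
          coeffMap (A.subtype.comp (S18.Vert.zlTo A hA)) (v : LaurentSeries (S28.Zl p)) := by
        rw [hv, S18.Vert.coeffMap_eval₂_evalJ, ← derivative_map, huK]
        rfl
      have h2 : ((derivative (S28.Export.chiK A D hA)).eval₂ (S28.evalJ Kbar)
          (S28.Export.uK A D hA))⁻¹ =
          coeffMap (A.subtype.comp (S18.Vert.zlTo A hA))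
            ((v⁻¹ : (LaurentSeries (S28.Zl p))ˣ) : LaurentSeries (S28.Zl p)) := by
        rw [h1]
        symm
        refine eq_inv_of_mul_eq_one_left ?_
        rw [← map_mul, Units.inv_mul, map_one]
      rw [h2]
      exact hT2 _)
    1 one_ne_zero
    (by
      intro Q _ _ _ _
      rw [C_1]
      exact one_dvd Q)
    x
    (by
      intro S hS huS
      have hK : ∀ c : Kbar, algebraMap Kbar (LaurentSeries Kbar) c ∈ S := by
        intro c
        have := hS (C c)
        rw [S28.evalJ_C] at this
        rw [algebraMap_laurentSeries_eq_single]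
        exact this
      have hle : S28.Export.bigK A D hA ≤ S.toIntermediateField hK := by
        rw [S28.Export.bigK, IntermediateField.adjoin_le_iff]
        rintro y (rfl | rfl)
        · have := hS X
          rwa [S28.evalJ_X] at this
        · exact huS
      apply hle
      rw [S28.Export.bigK_eq_full A D hA hu, ← S28.Export.bar_eq_full]
      exact hx)
    hint
  exact key.1

end Fermat.Agent.S44.F

end
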