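/-
S44 / F / Dual / Int (helper100).  NODE INT-2: every element of `FN M` (`p ∤ M`) which is integral over `ℚ̄[j]` has
coefficients in a number field and bounded `A`-denominators (`Int/EulerAbs.lean` for `T = bddRing A`).
(helper245, task 2995)
-/
import Fermat.Agent.S44.F.Dual.Int.Bdd
import Fermat.Agent.S44.F.Dual.Int.EulerAbs

set_option autoImplicit false

noncomputable section

namespace Fermat.Agent.S44.F

open ModularCurve AlgebraicCurve Polynomial Fermat.Agent.S24 Fermat.Agent.GAL

theorem isBdd_of_isIntegralElem (p M : ℕ) [NeZero M] (hp : p.Prime) (hpM : ¬ p ∣ M)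
    (A : ValuationSubring Qb) (hA : A.LiesOverPrime p) (x : LaurentSeries Kbar)
    (hx : x ∈ modularFunctionFieldBar M) (hint : (S28.evalJ Kbar).IsIntegralElem x) :
    IsBdd A x := by
  have : Fact p.Prime := ⟨hp⟩
  exact eulerAbs_mem_of_isIntegralElem p M hpM A hA (bddRing A) (fun P => isBdd_evalJ A hA P)
    (fun z => isBdd_coeffMap_zl A hA z) x hx hint

end Fermat.Agent.S44.F

end
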