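/-
S44 / F / Dual / Int, node INT-3 (task 2996, proofs helper196): the elements of `L(m ∞)` are integral over `ℚ̄[j]`
(`S37.regInt`), in the form `RingHom.IsIntegralElem (S28.evalJ Kbar)`.
-/
import Fermat.Agent.S44.F.Dual.Defs
import Fermat.Agent.S37.RegInt
import Fermat.Agent.S24.Export.Ramification
import Fermat.Agent.S28.IntLaurent

set_option autoImplicit false

noncomputable section

namespace Fermat.Agent.S44.F

open ModularCurve AlgebraicCurve Polynomial Fermat.Agent.S24 Fermat.Agent.GAL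

private theorem Integral_coe_jF (M : ℕ) :
    ((jF M : FN M) : LaurentSeries Kbar) = jqModC Kbar := by
  change coeffEmb Kbar (qExpand ℚ 1 jq) = jqModC Kbar
  rw [qExpand_one_apply]
  exact coeffMap_jqModC (R := ℚ) _

private theorem Integral_ord_cusp_jF (M : ℕ) [NeZero M] : (S17.W.cusp M).ord (jF M) = -1 := by
  have hj0 : jF M ≠ 0 := fun h0 => Formal.transcendental_jF M (h0 ▸ isAlgebraic_zero)
  rw [S17.W.ord_cusp M _ hj0]
  exact B.order_Jser_one

private theorem Integral_comp (M : ℕ) :
    (modularFunctionFieldBar M).val.toRingHom.comp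
      (aeval (jF M) : Kbar[X] →ₐ[Kbar] FN M).toRingHom = S28.evalJ Kbar := by
  apply Polynomial.ringHom_ext
  · intro a
    rw [S28.evalJ_C]
    change (modularFunctionFieldBar M).val (aeval (jF M) (C a)) = _
    rw [aeval_C, AlgHom.commutes, algebraMap_laurentSeries_eq_single]
    rfl
  · rw [S28.evalJ_X]
    change (modularFunctionFieldBar M).val (aeval (jF M) X) = _
    rw [aeval_X]
    exact Integral_coe_jF M

theorem isIntegralElem_of_mem_Linf (M : ℕ) [NeZero M] (m : ℕ) (b : FN M) (hb : b ∈ Linf M m) :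
    (S28.evalJ Kbar).IsIntegralElem (b : LaurentSeries Kbar) := by
  have hFF : FF.IsFF1 Kbar (FN M) := S24.Export.isFF1 M
  have hreg : ∀ v : Place Kbar (FN M), 0 ≤ v.ord (jF M) → 0 ≤ v.ord b := by
    intro v hv
    have hne : S17.W.cusp M ≠ v := by
      rintro rfl
      rw [Integral_ord_cusp_jF] at hv
      omega
    rcases mem_riemannRochSpace_iff.mp hb v with h | h
    · rw [h]
      simp
    · rw [Finsupp.single_eq_of_ne (Ne.symm hne), neg_zero] at h
      exact h
  obtain ⟨P, hP, hPb⟩ := S37.regInt Kbar (FN M) (jF M) (Formal.transcendental_jF M) b hreg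
  have hl : P.map (algebraMap (Algebra.adjoin Kbar {jF M}) (FN M)) ∈
      Polynomial.lifts (aeval (jF M) : Kbar[X] →ₐ[Kbar] FN M).toRingHom := by
    rw [Polynomial.lifts_iff_coeff_lifts]
    intro i
    rw [coeff_map]
    have h2 : ∀ y : FN M, y ∈ Algebra.adjoin Kbar {jF M} →
        y ∈ (aeval (jF M) : Kbar[X] →ₐ[Kbar] FN M).range := by
      intro y hy
      rwa [Algebra.adjoin_singleton_eq_range_aeval] at hy
    obtain ⟨r, hr⟩ := h2 _ (P.coeff i).2
    exact ⟨r, hr⟩
  obtain ⟨Q, hQ, -, hQm⟩ := Polynomial.lifts_and_natDegree_eq_and_monic hl (hP.map _)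
  refine ⟨Q, hQm, ?_⟩
  have h0 : Q.eval₂ (aeval (jF M) : Kbar[X] →ₐ[Kbar] FN M).toRingHom b = 0 := by
    rw [← eval_map, hQ, eval_map]
    exact hPb
  have h1 := congrArg (modularFunctionFieldBar M).val.toRingHom h0
  rw [hom_eval₂, Integral_comp, map_zero] at h1
  exact h1

end Fermat.Agent.S44.F

end
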