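/-
S44 / F / Dual / Int, node INT-4: `DInt`: an element of `L(m ∞)` with `A`-integral principal part is `A`-integral up to a
constant  (`GAL.E.exists_max_of_bounded` + `const_of_reg`).
-/
import Fermat.Agent.S44.F.Dual.Int.Bdd
import Fermat.Agent.S44.F.Dual.Int.Euler
import Fermat.Agent.S44.F.Dual.Int.Integral
import Fermat.Agent.S44.F.Dual.NodesA
import Fermat.Agent.S44.F.Dual.AsmA
import Fermat.Agent.S44.F.Dual.Reg
import Fermat.Agent.GAL.E.Discrete
import Fermat.Agent.GAL.E.Scaling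

set_option autoImplicit false

noncomputable section

namespace Fermat.Agent.S44.F

open ModularCurve AlgebraicCurve Polynomial Fermat.Agent.S24 Fermat.Agent.GAL

/-- a nonzero bounded series is a constant times an integral series with nonzero reduction -/
theorem exists_scaling_of_isBdd (p : ℕ) (hp : p.Prime) (A : ValuationSubring Qb)
    (hA : A.LiesOverPrime p) (z : LaurentSeries Kbar) (hz : IsBdd A z) (hz0 : z ≠ 0) :
    ∃ (c : Kbar) (x : LaurentSeries A), c ≠ 0 ∧ E.red A x ≠ 0 ∧ z = HahnSeries.C c * E.incl A x := by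
  obtain ⟨⟨L, hLfin, hL⟩, c₀, hc₀, -, hbd⟩ := hz
  have hne : ∃ s ∈ Set.range z.coeff, s ≠ 0 := by
    by_contra hcon
    push Not at hcon
    apply hz0
    ext k
    exact hcon _ ⟨k, rfl⟩
  obtain ⟨s₀, ⟨k₀, hk₀⟩, hs₀, hmax⟩ := E.exists_max_of_bounded A p hp hA L (Set.range z.coeff)
    (by rintro _ ⟨k, rfl⟩; exact hL k) hne c₀ hc₀ (by rintro _ ⟨k, rfl⟩; exact hbd k)
  obtain ⟨x, hx⟩ := E.exists_incl_eq A (HahnSeries.C s₀⁻¹ * z) (fun k => by
    rw [E.scaling_coeff_C_mul, mul_comm, ← div_eq_mul_inv]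
    exact hmax _ ⟨k, rfl⟩)
  refine ⟨s₀, x, hs₀, ?_, ?_⟩
  · intro hred
    have h1 : (E.red A x).coeff k₀ = 0 := by rw [hred]; rfl
    rw [E.coeff_red] at h1
    have h2 : ((x.coeff k₀ : A) : Kbar) = 1 := by
      rw [← E.coeff_incl, hx, E.scaling_coeff_C_mul, hk₀, inv_mul_cancel₀ hs₀]
    have h3 : x.coeff k₀ = 1 := Subtype.ext h2
    rw [h3, map_one] at h1
    exact one_ne_zero h1
  · rw [hx, ← mul_assoc, ← map_mul, mul_inv_cancel₀ hs₀, map_one, one_mul]

theorem dInt : DInt := by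
  intro p M _ hp hpM A hA m b hb hpp
  refine ⟨(b : LaurentSeries Kbar).coeff 0, ?_⟩
  set c : Kbar := (b : LaurentSeries Kbar).coeff 0 with hc
  set b' : FN M := b - algebraMap Kbar (FN M) c with hb'
  have hb'L : b' ∈ Linf M m := sub_mem hb (AsmA_algebraMap_mem_Linf M m c)
  by_cases h0 : b' = 0
  · exact ⟨0, by rw [h0, map_zero]; rfl⟩
  have hcoe : (b' : LaurentSeries Kbar)
      = (b : LaurentSeries Kbar) - algebraMap Kbar (LaurentSeries Kbar) c := rfl
  have hcoef0 : (b' : LaurentSeries Kbar).coeff 0 = 0 := by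
    rw [hcoe, HahnSeries.coeff_sub, E.scaling_algebraMap, HahnSeries.C_apply,
      HahnSeries.coeff_single_same, sub_self]
  have hcoefA : ∀ n : ℤ, n ≤ 0 → (b' : LaurentSeries Kbar).coeff n ∈ A := by
    intro n hn
    rcases eq_or_lt_of_le hn with rfl | hn'
    · rw [hcoef0]
      exact A.zero_mem
    · by_cases hnm : n < -(m : ℤ)
      · rw [AsmA_coeff_eq_zero hb'L hnm]
        exact A.zero_mem
      · have e1 : (b' : LaurentSeries Kbar).coeff n = (b : LaurentSeries Kbar).coeff n := by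
          rw [hcoe, HahnSeries.coeff_sub, E.scaling_algebraMap, HahnSeries.C_apply,
            HahnSeries.coeff_single_of_ne hn'.ne, sub_zero]
        rw [e1]
        have e2 := hpp ⟨(-n - 1).toNat, by omega⟩
        have e3 : -((((⟨(-n - 1).toNat, by omega⟩ : Fin m) : ℕ) : ℤ) + 1) = n := by
          show -(((-n - 1).toNat : ℤ) + 1) = n
          omega
        unfold pp at e2
        rwa [e3] at e2
  have hbdd : IsBdd A (b' : LaurentSeries Kbar) :=
    isBdd_of_isIntegralElem p M hp hpM A hA _ b'.2 (isIntegralElem_of_mem_Linf M m b' hb'L)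
  have hb'0 : (b' : LaurentSeries Kbar) ≠ 0 := fun h => h0 (Subtype.ext h)
  obtain ⟨s, x, hs, hred, hbx⟩ := exists_scaling_of_isBdd p hp A hA _ hbdd hb'0
  by_cases hsA : s ∈ A
  · refine ⟨HahnSeries.C (⟨s, hsA⟩ : A) * x, ?_⟩
    rw [map_mul, hbx]
    congr 1
    ext k
    rw [E.coeff_incl, HahnSeries.C_apply, HahnSeries.C_apply, HahnSeries.coeff_single,
      HahnSeries.coeff_single]
    split_ifs <;> rfl
  · exfalso
    have hsinv : s⁻¹ ∈ A := (A.mem_or_inv_mem s).resolve_left hsA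
    have hres : IsLocalRing.residue A (⟨s⁻¹, hsinv⟩ : A) = 0 := by
      rw [IsLocalRing.residue_eq_zero_iff, IsLocalRing.mem_maximalIdeal, mem_nonunits_iff]
      intro hu
      obtain ⟨t, ht⟩ := hu.exists_right_inv
      apply hsA
      have h1 : s⁻¹ * (t : Kbar) = 1 := congrArg Subtype.val ht
      have h2 : (t : Kbar) = s := by
        rw [← mul_one s, ← h1, mul_inv_cancel_left₀ hs]
      rw [← h2]
      exact t.2
    have hinclx : E.incl A x = HahnSeries.C s⁻¹ * (b' : LaurentSeries Kbar) := by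
      rw [hbx, ← mul_assoc, ← map_mul, inv_mul_cancel₀ hs, map_one, one_mul]
    have hxmem : E.incl A x ∈ modularFunctionFieldBar M := by
      rw [hinclx]
      exact mul_mem (E.scaling_C_mem M _) b'.2
    have hxL : (⟨E.incl A x, hxmem⟩ : FN M) ∈ Linf M m := by
      have e : (⟨E.incl A x, hxmem⟩ : FN M) = s⁻¹ • b' := by
        apply Subtype.ext
        rw [Algebra.smul_def]
        show E.incl A x = algebraMap Kbar (LaurentSeries Kbar) s⁻¹ * (b' : LaurentSeries Kbar)
        rw [hinclx, E.scaling_algebraMap]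
      rw [e]
      exact Submodule.smul_mem _ _ hb'L
    have hredcoef : ∀ n : ℤ, n ≤ 0 → (E.red A x).coeff n = 0 := by
      intro n hn
      rw [E.coeff_red]
      have e : x.coeff n = (⟨s⁻¹, hsinv⟩ : A) * ⟨_, hcoefA n hn⟩ := by
        apply Subtype.ext
        rw [← E.coeff_incl, hinclx, E.scaling_coeff_C_mul]
        rfl
      rw [e, map_mul, hres, zero_mul]
    obtain ⟨c0, hc0⟩ := const_of_reg p M hp hpM A hA m x hxmem hxL (fun n hn => hredcoef n hn.le)
    apply hred
    have h1 := hredcoef 0 le_rfl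
    rw [hc0, HahnSeries.C_apply, HahnSeries.coeff_single_same] at h1
    rw [hc0, h1, map_zero]

end Fermat.Agent.S44.F

end
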